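import Mathlib
import Fermat.Prelude.Def_EllipticCurve_FrobeniusTrace

open scoped Pointwise

namespace Fermat.Agent.S54

noncomputable section

/-- local shorthand -/
local notation "Qb" => AlgebraicClosure ℚ
local notation "Γ" => (AlgebraicClosure ℚ ≃ₐ[ℚ] AlgebraicClosure ℚ)
local notation "Zb" => integralClosure ℤ (AlgebraicClosure ℚ)

theorem qbar_isAlgebraic : Algebra.IsAlgebraic ℚ Qb := AlgebraicClosure.isAlgebraic ℚ

attribute [local instance] qbar_isAlgebraic

theorem qbar_isAlgClosure : IsAlgClosure ℚ Qb := ⟨inferInstance, inferInstance⟩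

attribute [local instance] qbar_isAlgClosure

theorem qbar_isGalois : IsGalois ℚ Qb := inferInstance

attribute [local instance] qbar_isGalois

theorem zbar_isInvariant : Algebra.IsInvariant ℤ Zb Γ := by
  constructor
  intro b hb
  have h1 : (b : Qb) ∈ Set.range (algebraMap ℚ Qb) := by
    rw [InfiniteGalois.mem_range_algebraMap_iff_fixed]
    intro f
    have := congrArg (fun z : Zb => (z : Qb)) (hb f)
    simpa using this
  obtain ⟨q, hq⟩ := h1
  have h2 : IsIntegral ℤ q := by
    have h3 : IsIntegral ℤ (algebraMap ℚ Qb q) := by rw [hq]; exact b.2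
    exact (isIntegral_algebraMap_iff (algebraMap ℚ Qb).injective).mp h3
  obtain ⟨n, hn⟩ := IsIntegrallyClosed.isIntegral_iff.mp h2
  refine ⟨n, ?_⟩
  apply Subtype.ext
  rw [← hq, ← hn]
  simp

attribute [local instance] zbar_isInvariant

/-- discrete topology on the ring of algebraic integers -/
@[reducible] def zbarTopology : TopologicalSpace Zb := ⊥

attribute [local instance] zbarTopology

theorem zbar_discrete : DiscreteTopology Zb := ⟨rfl⟩

attribute [local instance] zbar_discrete

theorem zbar_continuousSMul : ContinuousSMul Γ Zb := by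
  rw [continuousSMul_iff_stabilizer_isOpen]
  intro x
  have h := stabilizer_isOpen_of_isIntegral (K := ℚ) (L := Qb) (x : Qb)
  convert h using 1
  ext g
  simp [Subtype.ext_iff]

attribute [local instance] zbar_continuousSMul

theorem zbar_mem (A : ValuationSubring Qb) (b : Zb) : (b : Qb) ∈ A := by
  have h1 : IsIntegral A (b : Qb) := IsIntegral.tower_top (R := ℤ) b.2
  obtain ⟨y, hy⟩ := IsIntegrallyClosed.isIntegral_iff.mp h1
  rw [← hy]
  exact y.2

theorem val_mul_lt_one (A : ValuationSubring Qb) {c x : Qb} (hc : c ∈ A) (hx : x ∈ A.nonunits) :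
    c * x ∈ A.nonunits := by
  have hc' : A.valuation c ≤ 1 := (A.valuation_le_one_iff _).mpr hc
  have hx' : A.valuation x < 1 := A.mem_nonunits_iff.mp hx
  rw [A.mem_nonunits_iff, map_mul]
  calc A.valuation c * A.valuation x ≤ 1 * A.valuation x := mul_le_mul' hc' le_rfl
    _ = A.valuation x := one_mul _
    _ < 1 := hx'

/-- The center of a valuation subring on the ring of algebraic integers. -/
def centerIdeal (A : ValuationSubring Qb) : Ideal Zb where
  carrier := {b | (b : Qb) ∈ A.nonunits}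
  add_mem' := fun {a b} ha hb => by
    simpa using A.nonunits.add_mem ha hb
  zero_mem' := by
    simp
  smul_mem' := fun c x hx => by
    show ((c • x : Zb) : Qb) ∈ A.nonunits
    simp only [smul_eq_mul, MulMemClass.coe_mul]
    exact val_mul_lt_one A (zbar_mem A c) hx

theorem mem_centerIdeal (A : ValuationSubring Qb) (b : Zb) :
    b ∈ centerIdeal A ↔ (b : Qb) ∈ A.nonunits := Iff.rfl

theorem mem_centerIdeal_iff_val (A : ValuationSubring Qb) (b : Zb) :
    b ∈ centerIdeal A ↔ A.valuation (b : Qb) < 1 := Iff.rfl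

theorem not_mem_centerIdeal_iff_val (A : ValuationSubring Qb) (b : Zb) :
    b ∉ centerIdeal A ↔ A.valuation (b : Qb) = 1 := by
  rw [mem_centerIdeal_iff_val]
  have hc : A.valuation (b : Qb) ≤ 1 := (A.valuation_le_one_iff _).mpr (zbar_mem A b)
  constructor
  · intro h; exact le_antisymm hc (not_lt.mp h)
  · intro h; rw [h]; exact lt_irrefl _

theorem centerIdeal_isPrime (A : ValuationSubring Qb) : (centerIdeal A).IsPrime := by
  constructor
  · intro h
    have h1 : (1 : Zb) ∈ centerIdeal A := by rw [h]; trivial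
    rw [mem_centerIdeal_iff_val] at h1
    simp at h1
  · intro x y hxy
    by_contra hcon
    rw [not_or] at hcon
    rw [not_mem_centerIdeal_iff_val, not_mem_centerIdeal_iff_val] at hcon
    rw [mem_centerIdeal_iff_val] at hxy
    simp only [MulMemClass.coe_mul, map_mul, hcon.1, hcon.2, mul_one] at hxy
    exact lt_irrefl _ hxy

open Polynomial in
theorem exists_mul_eq_aux (A : ValuationSubring Qb) (x : Qb) (hx : x ∈ A) :
    ∀ (n : ℕ) (g : Polynomial Zb), g.natDegree ≤ n → Polynomial.aeval x g = 0 →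
      (∃ i, g.coeff i ∉ centerIdeal A) →
      ∃ b s : Zb, s ∉ centerIdeal A ∧ x * (s : Qb) = (b : Qb) := by
  intro n
  induction n with
  | zero =>
    intro g hdeg hroot ⟨i, hi⟩
    by_cases hc : g.leadingCoeff ∈ centerIdeal A
    · exfalso
      have hg : g = C (g.coeff 0) := eq_C_of_natDegree_le_zero hdeg
      have hlc : g.leadingCoeff = g.coeff 0 := by
        rw [Polynomial.leadingCoeff, Nat.le_zero.mp hdeg]
      rw [hlc] at hc
      apply hi
      rw [hg, coeff_C]
      split_ifs
      · exact hc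
      · exact (centerIdeal A).zero_mem
    · have hint : IsIntegral Zb (g.leadingCoeff • x) := isIntegral_leadingCoeff_smul g x hroot
      have hint' : IsIntegral ℤ (g.leadingCoeff • x) := isIntegral_trans _ hint
      refine ⟨⟨g.leadingCoeff • x, hint'⟩, g.leadingCoeff, hc, ?_⟩
      simp [Algebra.smul_def, mul_comm]
  | succ m ih =>
    intro g hdeg hroot ⟨i, hi⟩
    have hint : IsIntegral Zb (g.leadingCoeff • x) := isIntegral_leadingCoeff_smul g x hroot
    have hint' : IsIntegral ℤ (g.leadingCoeff • x) := isIntegral_trans _ hint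
    by_cases hc : g.leadingCoeff ∈ centerIdeal A
    · by_cases hdeg' : g.natDegree ≤ m
      · exact ih g hdeg' hroot ⟨i, hi⟩
      · have hdegeq : g.natDegree = m + 1 := by omega
        let t : Zb := ⟨g.leadingCoeff • x, hint'⟩
        have ht : t ∈ centerIdeal A := by
          rw [mem_centerIdeal]
          show g.leadingCoeff • x ∈ A.nonunits
          rw [Algebra.smul_def, mul_comm]
          exact val_mul_lt_one A hx hc
        let g' : Polynomial Zb := g.eraseLead + C t * X ^ m
        have hg'deg : g'.natDegree ≤ m := by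
          refine (natDegree_add_le _ _).trans (max_le ?_ ?_)
          · have := eraseLead_natDegree_le g
            omega
          · exact natDegree_C_mul_X_pow_le t m
        have hg'root : aeval x g' = 0 := by
          have h1 : g.eraseLead + monomial g.natDegree g.leadingCoeff = g :=
            eraseLead_add_monomial_natDegree_leadingCoeff g
          have h2 : aeval x g.eraseLead + aeval x (monomial g.natDegree g.leadingCoeff) = 0 := by
            rw [← map_add, h1, hroot]
          simp only [g', map_add, map_mul, aeval_C, map_pow, aeval_X]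
          rw [aeval_monomial, hdegeq] at h2
          have h3 : (algebraMap Zb Qb) t = (g.leadingCoeff : Qb) * x := by
            simp [t, Algebra.smul_def]
          rw [h3]
          have h4 : (algebraMap Zb Qb) g.leadingCoeff = (g.leadingCoeff : Qb) := rfl
          rw [h4] at h2
          linear_combination h2
        have hi_ne : i ≠ m + 1 := by
          intro h
          apply hi
          rw [h, ← hdegeq]
          exact hc
        have hcoeff : g'.coeff i ∉ centerIdeal A := by
          simp only [g', coeff_add, coeff_C_mul, coeff_X_pow]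
          rw [eraseLead_coeff_of_ne i (by rw [hdegeq]; exact hi_ne)]
          split_ifs with him
          · intro hmem
            apply hi
            have := (centerIdeal A).sub_mem hmem ((centerIdeal A).mul_mem_right 1 ht)
            simpa using this
          · simpa using hi
        exact ih g' hg'deg hg'root ⟨i, hcoeff⟩
    · refine ⟨⟨g.leadingCoeff • x, hint'⟩, g.leadingCoeff, hc, ?_⟩
      simp [Algebra.smul_def, mul_comm]

open Polynomial in
theorem exists_mul_eq (A : ValuationSubring Qb) (x : Qb) (hx : x ∈ A) :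
    ∃ b s : Zb, s ∉ centerIdeal A ∧ x * (s : Qb) = (b : Qb) := by
  have halg : IsAlgebraic ℤ x :=
    (IsFractionRing.isAlgebraic_iff ℤ ℚ Qb).mpr (Algebra.IsAlgebraic.isAlgebraic x)
  obtain ⟨p, hp0, hpx⟩ := halg
  have hprim : p.primPart.IsPrimitive := isPrimitive_primPart p
  have hroot : aeval x p.primPart = 0 := by
    have h1 : p = C p.content * p.primPart := eq_C_content_mul_primPart p
    rw [h1, map_mul, aeval_C] at hpx
    have h2 : (algebraMap ℤ Qb) p.content ≠ 0 := by
      simpa using (content_eq_zero_iff.not.mpr hp0)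
    exact (mul_eq_zero.mp hpx).resolve_left h2
  have := centerIdeal_isPrime A
  have hex : ∃ i, (p.primPart.map (algebraMap ℤ Zb)).coeff i ∉ centerIdeal A := by
    by_contra hcon
    push Not at hcon
    have hP : ((centerIdeal A).comap (algebraMap ℤ Zb)) ≠ ⊤ := Ideal.comap_ne_top _ (Ideal.IsPrime.ne_top inferInstance)
    apply hP
    have hdvd : C (Submodule.IsPrincipal.generator ((centerIdeal A).comap (algebraMap ℤ Zb))) ∣ p.primPart := by
      rw [C_dvd_iff_dvd_coeff]
      intro i
      rw [← Submodule.IsPrincipal.mem_iff_generator_dvd]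
      have := hcon i
      rw [coeff_map] at this
      exact this
    have hunit := hprim _ hdvd
    rw [← Ideal.span_singleton_generator ((centerIdeal A).comap (algebraMap ℤ Zb))]
    exact Ideal.span_singleton_eq_top.mpr hunit
  exact exists_mul_eq_aux A x hx _ (p.primPart.map (algebraMap ℤ Zb)) le_rfl
    (by rw [aeval_map_algebraMap]; exact hroot) hex

theorem coe_smul_zbar (τ : Γ) (b : Zb) : ((τ • b : Zb) : Qb) = τ (b : Qb) := rfl

theorem map_mem_of_smul_centerIdeal (A : ValuationSubring Qb) (τ : Γ)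
    (hτ : τ • centerIdeal A = centerIdeal A) (x : Qb) (hx : x ∈ A) : τ x ∈ A := by
  obtain ⟨b, s, hs, hxs⟩ := exists_mul_eq A x hx
  have h1 : τ x * τ (s : Qb) = τ (b : Qb) := by rw [← map_mul, hxs]
  have hs' : τ • s ∉ centerIdeal A := by
    intro h
    apply hs
    rw [← hτ] at h
    exact Ideal.smul_mem_pointwise_smul_iff.mp h
  rw [not_mem_centerIdeal_iff_val, coe_smul_zbar] at hs'
  have hb : A.valuation (τ (b : Qb)) ≤ 1 := by
    rw [← coe_smul_zbar]
    exact (A.valuation_le_one_iff _).mpr (zbar_mem A _)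
  rw [← A.valuation_le_one_iff]
  calc A.valuation (τ x) = A.valuation (τ x) * A.valuation (τ (s : Qb)) := by rw [hs', mul_one]
    _ = A.valuation (τ (b : Qb)) := by rw [← map_mul, h1]
    _ ≤ 1 := hb

theorem smul_eq_of_smul_centerIdeal (A : ValuationSubring Qb) (τ : Γ)
    (hτ : τ • centerIdeal A = centerIdeal A) : τ • A = A := by
  have hτ' : τ⁻¹ • centerIdeal A = centerIdeal A := by
    conv_lhs => rw [← hτ]
    rw [inv_smul_smul]
  apply le_antisymm
  · intro x hx
    rw [ValuationSubring.mem_pointwise_smul_iff_inv_smul_mem] at hx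
    have := map_mem_of_smul_centerIdeal A τ hτ _ hx
    simpa using this
  · intro x hx
    rw [ValuationSubring.mem_pointwise_smul_iff_inv_smul_mem]
    exact map_mem_of_smul_centerIdeal A τ⁻¹ hτ' x hx

theorem exists_valuationSubring_liesOver (ℓ : ℕ) (hℓ : ℓ.Prime) :
    ∃ A : ValuationSubring Qb, (ℓ : Qb) ∈ A.nonunits := by
  let R : Subring Qb := (Int.castRingHom Qb).range
  let ℓR : R := ⟨(ℓ : Qb), ⟨(ℓ : ℤ), by simp⟩⟩
  have hI : Ideal.span {ℓR} ≠ ⊤ := by
    intro h
    rw [Ideal.span_singleton_eq_top] at h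
    obtain ⟨⟨u, n, hn⟩, hu⟩ := h.exists_right_inv
    have h1 : (ℓ : Qb) * u = 1 := congrArg Subtype.val hu
    rw [← hn] at h1
    have h2 : ((ℓ : ℤ) * n : ℤ) = 1 := by
      have : (((ℓ : ℤ) * n : ℤ) : Qb) = ((1 : ℤ) : Qb) := by push_cast; simpa using h1
      exact_mod_cast this
    have h3 : (ℓ : ℤ) ∣ 1 := ⟨n, h2.symm⟩
    have h4 : ℓ ∣ 1 := by exact_mod_cast h3
    exact hℓ.one_lt.ne' (Nat.dvd_one.mp h4)
  obtain ⟨A, -, hA⟩ := Ideal.image_subset_nonunits_valuationSubring _ hI
  exact ⟨A, hA ⟨ℓR, Ideal.subset_span rfl, rfl⟩⟩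

theorem natCast_mem_centerIdeal (A : ValuationSubring Qb) (ℓ : ℕ) (hA : (ℓ : Qb) ∈ A.nonunits) :
    ((ℓ : ℕ) : Zb) ∈ centerIdeal A := by
  rw [mem_centerIdeal]
  simpa using hA

theorem charP_quotient_centerIdeal (A : ValuationSubring Qb) (ℓ : ℕ) (hℓ : ℓ.Prime)
    (hA : (ℓ : Qb) ∈ A.nonunits) : CharP (Zb ⧸ centerIdeal A) ℓ := by
  have := centerIdeal_isPrime A
  obtain ⟨c, hc⟩ := CharP.exists (Zb ⧸ centerIdeal A)
  have h0 : ((ℓ : ℕ) : Zb ⧸ centerIdeal A) = 0 := by
    have := Ideal.Quotient.eq_zero_iff_mem.mpr (natCast_mem_centerIdeal A ℓ hA)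
    simpa using this
  have h1 : c ∣ ℓ := (CharP.cast_eq_zero_iff (Zb ⧸ centerIdeal A) c ℓ).mp h0
  have h2 : c ≠ 1 := CharP.char_ne_one (Zb ⧸ centerIdeal A) c
  have h3 : c = ℓ := ((Nat.dvd_prime hℓ).mp h1).resolve_left h2
  exact h3 ▸ hc

theorem frobenius_bijective_quotient (A : ValuationSubring Qb) (ℓ : ℕ) (hℓ : ℓ.Prime)
    (hA : (ℓ : Qb) ∈ A.nonunits) :
    Function.Bijective (fun x : Zb ⧸ centerIdeal A => x ^ ℓ) := by
  have := centerIdeal_isPrime A
  have := charP_quotient_centerIdeal A ℓ hℓ hA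
  have : Fact ℓ.Prime := ⟨hℓ⟩
  constructor
  · exact frobenius_inj (Zb ⧸ centerIdeal A) ℓ
  · intro y
    obtain ⟨b, rfl⟩ := Ideal.Quotient.mk_surjective y
    obtain ⟨r, hr⟩ := IsAlgClosed.exists_pow_nat_eq (b : Qb) hℓ.pos
    have hint : IsIntegral ℤ r := IsIntegral.of_pow hℓ.pos (hr ▸ b.2)
    refine ⟨Ideal.Quotient.mk _ (⟨r, hint⟩ : Zb), ?_⟩
    show (Ideal.Quotient.mk _ (⟨r, hint⟩ : Zb)) ^ ℓ = _
    rw [← map_pow]
    congr 1
    exact Subtype.ext hr

/-- The Frobenius automorphism of the residue ring. -/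
def frobAlgEquiv (A : ValuationSubring Qb) (ℓ : ℕ) (hℓ : ℓ.Prime)
    (hA : (ℓ : Qb) ∈ A.nonunits) :
    (Zb ⧸ centerIdeal A) ≃ₐ[ℤ ⧸ (centerIdeal A).under ℤ] (Zb ⧸ centerIdeal A) :=
  have := centerIdeal_isPrime A
  have := charP_quotient_centerIdeal A ℓ hℓ hA
  have : Fact ℓ.Prime := ⟨hℓ⟩
  AlgEquiv.ofBijective
    { toRingHom := frobenius (Zb ⧸ centerIdeal A) ℓ
      commutes' := by
        intro r
        obtain ⟨n, rfl⟩ := Ideal.Quotient.mk_surjective r
        have h1 : (Ideal.Quotient.mk ((centerIdeal A).under ℤ)) n = ((n : ℤ) : ℤ ⧸ (centerIdeal A).under ℤ) := by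
          simp
        rw [h1]
        simp }
    (frobenius_bijective_quotient A ℓ hℓ hA)

theorem frobAlgEquiv_apply (A : ValuationSubring Qb) (ℓ : ℕ) (hℓ : ℓ.Prime)
    (hA : (ℓ : Qb) ∈ A.nonunits) (x : Zb ⧸ centerIdeal A) :
    frobAlgEquiv A ℓ hℓ hA x = x ^ ℓ := rfl

theorem exists_valuationSubring_isFrobeniusAt (ℓ : ℕ) (hℓ : ℓ.Prime) :
    ∃ (A : ValuationSubring (AlgebraicClosure ℚ))
      (σ : AlgebraicClosure ℚ ≃ₐ[ℚ] AlgebraicClosure ℚ),
      A.LiesOverPrime ℓ ∧ A.IsFrobeniusAt σ ℓ := by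
  obtain ⟨A, hA⟩ := exists_valuationSubring_liesOver ℓ hℓ
  have := centerIdeal_isPrime A
  obtain ⟨⟨σ, hσ⟩, hF⟩ := Ideal.Quotient.stabilizerHom_surjective_of_profinite (G := Γ)
    ((centerIdeal A).under ℤ) (centerIdeal A) (frobAlgEquiv A ℓ hℓ hA)
  have hσA : σ • A = A := smul_eq_of_smul_centerIdeal A σ hσ
  have key : ∀ b : Zb, (σ • b) - b ^ ℓ ∈ centerIdeal A := by
    intro b
    have h1 := congrArg (fun f => f (Ideal.Quotient.mk (centerIdeal A) b)) hF
    simp only [Ideal.Quotient.stabilizerHom_apply, frobAlgEquiv_apply] at h1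
    rw [← map_pow, Ideal.Quotient.eq] at h1
    exact h1
  refine ⟨A, σ, hA, hσA, ?_⟩
  intro x
  obtain ⟨a, rfl⟩ := IsLocalRing.residue_surjective x
  rw [← IsLocalRing.ResidueField.residue_smul, ← map_pow, ← sub_eq_zero, ← map_sub,
    IsLocalRing.residue_eq_zero_iff, ← ValuationSubring.coe_mem_nonunits_iff]
  show σ (a : Qb) - (a : Qb) ^ ℓ ∈ A.nonunits
  obtain ⟨b, s, hs, has⟩ := exists_mul_eq A (a : Qb) a.2
  have hq2 : σ (b : Qb) - (b : Qb) ^ ℓ ∈ A.nonunits := key b
  have hq1 : σ (s : Qb) - (s : Qb) ^ ℓ ∈ A.nonunits := key s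
  have hs' : σ • s ∉ centerIdeal A := by
    intro h
    apply hs
    have hσ' : σ • centerIdeal A = centerIdeal A := hσ
    rw [← hσ'] at h
    exact Ideal.smul_mem_pointwise_smul_iff.mp h
  rw [not_mem_centerIdeal_iff_val, coe_smul_zbar] at hs'
  have hprod : (σ (a : Qb) - (a : Qb) ^ ℓ) * σ (s : Qb) ∈ A.nonunits := by
    have h1 : σ (a : Qb) * σ (s : Qb) = σ (b : Qb) := by rw [← map_mul, has]
    have h2 : (σ (a : Qb) - (a : Qb) ^ ℓ) * σ (s : Qb) =
        (σ (b : Qb) - (b : Qb) ^ ℓ) - (a : Qb) ^ ℓ * (σ (s : Qb) - (s : Qb) ^ ℓ) := by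
      have h3 : (b : Qb) ^ ℓ = (a : Qb) ^ ℓ * (s : Qb) ^ ℓ := by rw [← has, mul_pow]
      linear_combination h1 + h3
    rw [h2]
    exact A.nonunits.sub_mem hq2 (val_mul_lt_one A (pow_mem a.2 ℓ) hq1)
  rw [A.mem_nonunits_iff] at hprod ⊢
  rwa [map_mul, hs', mul_one] at hprod

/-- Existence of Frobenius elements: for every prime `l` there is a valuation subring of
`AlgebraicClosure ℚ` lying over `l` together with a Frobenius element at it. -/
theorem exists_isFrobeniusAt (l : ℕ) (hl : l.Prime) :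
    ∃ A : ValuationSubring (AlgebraicClosure ℚ), A.LiesOverPrime l ∧
      ∃ σ : AlgebraicClosure ℚ ≃ₐ[ℚ] AlgebraicClosure ℚ, A.IsFrobeniusAt σ l := by
  obtain ⟨A, σ, hA, hσ⟩ := exists_valuationSubring_isFrobeniusAt l hl
  exact ⟨A, hA, σ, hσ⟩

end

end Fermat.Agent.S54
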